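import Fermat.Agent.E.S12.Leaves
import Fermat.Agent.MU.E.S12.ZeroComp
import Fermat.Agent.MU.Lib.MultRed.Comp.VeluVal
import Fermat.Agent.MU.Lib.MultRed.Main
import Fermat.Agent.S05.H27.OfValuation

section MergeWrap_E_S12_L1 -- from E/S12/L1.lean

/-!
# Cluster E' (Mazur), S12 side, seat L1 (helper45)

`l1Statement : p.Prime → p ≠ 2 → L1Statement p`: at a multiplicative prime `ℓ` (any `ℓ`, including
`2`, `3`, `p`), the Vélu quotient of an integral model by the line generated by a point `Q` of order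
`p` outside the zero component has `c₄` a unit and `v(Δ')^p = v(Δ)`.

Proof: nodal normal form (`Lib/MultRed/NormalQbar`), invariance of the Vélu quotient under changes
of variables (`E/S12/VeluVC`, helper77), and the component function `rhoN` on the line `⟨Q⟩`
(`Lib/MultRed/Comp/*`): the `x`-coordinates of the nonzero multiples of `Q` have valuations
`j • g`, `1 ≤ j ≤ (p-1)/2`, `p • g = w(Δ)`, each twice, so the Vélu sum `t` has valuation `g`.
-/

set_option autoImplicit false
set_option linter.unusedSectionVars false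

open WeierstrassCurve WeierstrassCurve.Affine

namespace Fermat.Agent.ES12

open Fermat.Agent.EV Fermat.Agent.EVC Fermat.Agent.MultRed Fermat.Agent.MultRed.Comp
  Fermat.Agent.VarChange S05H65 S05H27

section

variable {K : Type*} [Field K] {G : Type*} [AddCommGroup G] [LinearOrder G] [IsOrderedAddMonoid G]
  {V : AVal K G} {h : G}

/-- the clamped valuation of an element of the maximal ideal is positive -/
lemma cl_pos_of_gt (hh : 0 < h) {x : K} (hx : V.Gt x 0) : 0 < V.cl h x := by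
  rcases AVal.regime V h x with ⟨α, h1, hα⟩ | ⟨α, h1, hα, hα'⟩ | h1
  · exact absurd (h1.not_gt hx) (not_lt.mpr hα)
  · rw [AVal.cl_of_ex h1]
    grind
  · rw [AVal.cl_of_ge hh h1]
    exact hh

end

/-- **(L1)** -/
theorem l1Statement {p : ℕ} (hp : p.Prime) (hp2 : p ≠ 2) : L1Statement p := by
  intro W hΔ ℓ hℓ hdvd hc₄ A hA Q hQ hnz
  have : Fact ℓ.Prime := ⟨hℓ⟩
  obtain ⟨r, t, α, β, hr, ht, nf, -⟩ := exists_nodalNF W hdvd hc₄ A hA
  set E : Affine Qb := CurveQb W with hE
  set E' : Affine Qb := (transl r t) • E with hE'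
  have hint := intCoeff_map_int W A
  -- the point in the normal form
  set Q' : E'.Point := (vcEquiv (W₁ := E) (transl r t) rfl).symm Q with hQ'
  have hQQ' : vcHom (W₁ := E) (transl r t) rfl Q' = Q :=
    (vcEquiv (W₁ := E) (transl r t) rfl).apply_symm_apply Q
  have hordQ' : addOrderOf Q' = p := by
    rw [← addOrderOf_vcHom (W₁ := E) (transl r t) rfl Q', hQQ']
    exact hQ
  have hsing : IsSingPt A.valuation Q := by
    by_contra hns
    exact hnz ((inZeroComponentAt_iff_inE0v W A Q).mpr ((not_isSingPt_iff_inE0v Q).mp hns))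
  have hnode : IsNodePt A.valuation Q' :=
    isNodePt_of_isSingPt A.valuation E ((A.valuation_le_one_iff _).mpr hint.mem_a₁)
      ((A.valuation_le_one_iff _).mpr hint.mem_a₂) ((A.valuation_le_one_iff _).mpr hint.mem_a₃)
      ((A.valuation_le_one_iff _).mpr hint.mem_a₄) ((A.valuation_le_one_iff _).mpr hint.mem_a₆)
      hr ht nf Q' (by rw [hQQ']; exact hsing)
  -- the discriminant
  have hΔE : E.Δ = ((W.Δ : ℤ) : Qb) := by
    rw [hE]
    show ((W.map (Int.castRingHom ℚ)).map (algebraMap ℚ Qb)).Δ = _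
    rw [WeierstrassCurve.map_Δ, WeierstrassCurve.map_Δ]
    simp
  have hΔE' : E'.Δ = E.Δ := by
    rw [hE', variableChange_Δ]
    have : (((transl r t).u⁻¹ : Qbˣ) : Qb) = 1 := by
      show (((1 : Qbˣ)⁻¹ : Qbˣ) : Qb) = 1
      simp
    rw [this, one_pow, one_mul]
  have hΔ0 : E'.Δ ≠ 0 := by
    rw [hΔE', hΔE]
    exact_mod_cast hΔ
  have ha₆0 : E'.a₆ ≠ 0 := by
    intro h0
    apply hΔ0
    rw [Δ_of_normal E' nf.a₃ nf.a₄, h0]
    ring
  -- the additive valuation and the parameters
  set V := ofValuation A.valuation with hV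
  obtain ⟨δ, hδ⟩ := IsAlgClosed.exists_pow_nat_eq E'.a₆ (n := 2) (by norm_num)
  have hδ0 : δ ≠ 0 := by
    rintro rfl
    apply ha₆0
    rw [← hδ]
    ring
  set h := V.w δ with hh'
  have ha₆ : V.Ex E'.a₆ (h + h) := by
    rw [← hδ]
    exact (AVal.ex_of_ne hδ0).sq
  have hh : 0 < h := by
    have h1 : V.Gt E'.a₆ 0 := (lt_one_iff_gt A.valuation _).mp nf.va₆
    have h2 := ha₆.not_gt h1
    by_contra hc
    rw [not_lt] at hc
    have : h + h ≤ 0 := add_nonpos hc hc
    exact absurd h2 (not_lt.mpr this)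
  have hb₂ : V.Ex E'.b₂ 0 := by
    rw [← eq_one_iff_ex]
    have hb : E'.b₂ = (α - β) ^ 2 := by
      have h1 := nf.hsum
      have h2 := nf.hprod
      simp only [WeierstrassCurve.b₂]
      have ha₁ : E'.a₁ = -(α + β) := by rw [h1]; ring
      have ha₂ : E'.a₂ = -(α * β) := by rw [h2]; ring
      rw [ha₁, ha₂]
      ring
    rw [hb, map_pow, nf.vαβ, one_pow]
  have Cn : CoreN V E'.b₂ E'.a₆ h :=
    { h2 := ge_ofNat V 2
      hb₂ := hb₂
      ha₆ := ha₆
      hh := hh }
  have hQ'0 : Q' ≠ 0 := by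
    intro h0
    rw [h0] at hnode
    exact hnode
  have hρ : rhoN V h Q' ≠ 0 := by
    rw [rhoN_of_ne hQ'0]
    apply ne_of_gt
    apply cl_pos_of_gt hh
    rw [hV, ← lt_one_iff_gt]
    rcases hQ'' : Q' with _ | ⟨x, y, hxy⟩
    · exact absurd hQ'' hQ'0
    · rw [hQ''] at hnode
      exact hnode.1
  obtain ⟨g, hg0, hpg, hc₄', hΔ'⟩ :=
    velu_val nf.a₃ nf.a₄ Cn (two_ne_zero) hp hp2 Q' hordQ' hρ
  -- transfer to the original model
  have hfin : ((AddSubgroup.zmultiples Q : Set E.Point)).Finite := by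
    rw [finite_zmultiples, ← addOrderOf_pos_iff, hQ]
    exact hp.pos
  have hpre : (vcHom (W₁ := E) (transl r t) rfl) ⁻¹' (AddSubgroup.zmultiples Q : Set E.Point)
      = (AddSubgroup.zmultiples Q' : Set E'.Point) :=
    preimage_zmultiples (W₁ := E) (transl r t) rfl Q
  have hu : (((transl r t).u : Qbˣ) : Qb) = 1 := rfl
  have e₄ := veluCurve_c₄_vc (W₁ := E) (transl r t) rfl _ hfin
  have eΔ := veluCurve_Δ_vc (W₁ := E) (transl r t) rfl _ hfin
  rw [hpre, hu, one_pow, one_mul] at e₄ eΔ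
  constructor
  · show A.valuation (veluCurve E (AddSubgroup.zmultiples Q : Set E.Point)).c₄ = 1
    rw [e₄, eq_one_iff_ex]
    exact hc₄'
  · show A.valuation (veluCurve E (AddSubgroup.zmultiples Q : Set E.Point)).Δ ^ p = _
    rw [eΔ, ← hΔE, ← hΔE', ← map_pow, eq_iff_ex A.valuation hΔ0]
    have h1 : V.Ex E'.Δ (h + h) := by
      have : A.valuation E'.Δ = A.valuation E'.a₆ := nf.v_Δ
      rw [eq_iff_ex A.valuation ha₆0] at this
      exact this.congr ha₆.2
    have h2 := hΔ'.pow p
    rw [hpg] at h2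
    exact h2.congr h1.2.symm

end Fermat.Agent.ES12
end MergeWrap_E_S12_L1
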